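import Fermat.Agent.S38.H47.NuGenIA
import Fermat.Agent.S38T.H473.PtSpec
import Fermat.Agent.S38T.H473.PtGlueGen

/-!
# S59 (B2), cell HECKE-T, leaf IA-NU at the frozen `t`-generic specs  (helper47)

* `iaNuPt_T : S58.S36Statement → H473.IANuPtStatement_T` : the point-level form of IA-NU for
  every type `ty : PType` and every odd `p` (`S38T/H473/PtSpec.lean`), VERBATIM;
* `iaNu_T : S58.S36Statement → IAFreeStatement_T → IANuStatement_T` : the leaf IA-NU of
  `S38T/IA/Hecke/Spec3.lean`, VERBATIM (kill glue: helper473 `iaNu_of_pt_T473`).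

Both are instances of the generic theorem `nuPt_gen` (`S38/H47/NuGen.lean`): no `5 ≤ p`, no
`.flat`.
-/

set_option autoImplicit false
set_option linter.unusedVariables false

open Polynomial IsLocalRing CongruenceSubgroup
open scoped MatrixGroups

namespace Fermat.Agent.S38.H47

open Fermat.Agent.S59.Arch Fermat.Agent.S59.TW.H959 Fermat.Agent.S59.TW Fermat.Agent.S59.H765
open Fermat.Agent.S59.TW.H653 Fermat.Agent.S59.TW.Aut
open Fermat.Agent.S38.IA Fermat.Agent.S38.IA.Hecke

/-- **IA-NU, pointwise, for every type `ty` and every odd `p`**, from the frozen S36. -/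
theorem iaNuPt_T (h36 : Fermat.Agent.S58.S36Statement) :
    Fermat.Agent.S38.H473.IANuPtStatement_T := by
  intro p hpF hp3 𝒪 _ _ _ _ _ _ ρbar Smin hR ty hty Piv hPiv k pv hpv hpvPiv n r qv hq hNQ PQ α hα
    V h a hV hhalf₁ hhalf₂ ha χ hχ P hP hthrough
  exact nuPt_IA_t h36 hR ty hPiv hpv hpvPiv hq PQ hV hhalf₁ hhalf₂ a ha χ hχ.2 P hP hthrough

/-- **IA-NU for every type `ty` and every odd `p`**, from the frozen S36 and IA-FREE. -/
theorem iaNu_T (h36 : Fermat.Agent.S58.S36Statement) (hFree : IAFreeStatement_T) :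
    IANuStatement_T :=
  Fermat.Agent.S38.H473.Gen.iaNu_of_pt_T473 hFree (iaNuPt_T h36)

end Fermat.Agent.S38.H47
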